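import Mathlib
import Fermat.Prelude.Def_CuspForm_HeckeAlgebra
import Fermat.Prelude.Def_FLTPrelim_Modularity
import Fermat.Prelude.Thm_ModularFormClass_qCoeff_heckeT
import Fermat.Prelude.Thm_ModularFormClass_qCoeff_heckeU
import Fermat.Prelude.Thm_UpperHalfPlane_eq_of_forall_qCoeff_eq

section MergeWrap_S49_H91Formal -- from S49/H91Formal.lean

/-!
# Formal Hecke recursions (pure arithmetic), used for S49 Step C.

`c : ℕ → R` is a sequence with `c (n * ℓ) + [ℓ ∣ n] e ℓ * c (n / ℓ) = lam ℓ * c n` for all primes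
`ℓ` and all `n`.
-/

set_option autoImplicit false

namespace Fermat.Agent.S49h91

section Formal

variable {R : Type*} [CommRing R]

/-- The formal Hecke eigen-relation. -/
def FormalEigenRel (e lam c : ℕ → R) : Prop :=
  ∀ ℓ : ℕ, ℓ.Prime → ∀ n : ℕ,
    c (n * ℓ) + (if ℓ ∣ n then e ℓ * c (n / ℓ) else 0) = lam ℓ * c n

theorem FormalEigenRel.eq_zero_of_one {e lam c : ℕ → R} (h : FormalEigenRel e lam c)
    (h1 : c 1 = 0) : ∀ n : ℕ, 1 ≤ n → c n = 0 := by
  intro n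
  induction n using Nat.strong_induction_on with
  | _ n ih =>
  intro hn
  rcases Nat.eq_or_lt_of_le hn with rfl | hn1
  · exact h1
  · have hℓ : (n.minFac).Prime := Nat.minFac_prime (by omega)
    have hdvd : n.minFac ∣ n := Nat.minFac_dvd n
    set ℓ := n.minFac with hℓdef
    have hℓ2 : 2 ≤ ℓ := hℓ.two_le
    obtain ⟨m, hm⟩ := hdvd
    have hmpos : 1 ≤ m := by
      rcases Nat.eq_zero_or_pos m with h0 | h0
      · rw [h0, mul_zero] at hm; omega
      · exact h0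
    have hmlt : m < n := by
      rw [hm]; nlinarith
    have hrel := h ℓ hℓ m
    have hnm : n = m * ℓ := by rw [hm, mul_comm]
    rw [← hnm, ih m hmlt hmpos, mul_zero] at hrel
    by_cases hd : ℓ ∣ m
    · rw [if_pos hd] at hrel
      have hq1 : 1 ≤ m / ℓ := Nat.div_pos (Nat.le_of_dvd hmpos hd) hℓ.pos
      have hqlt : m / ℓ < n := lt_of_le_of_lt (Nat.div_le_self m ℓ) hmlt
      rw [ih (m / ℓ) hqlt hq1, mul_zero, add_zero] at hrel
      exact hrel
    · rw [if_neg hd, add_zero] at hrel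
      exact hrel

theorem FormalEigenRel.prime_eq {e lam c : ℕ → R} (h : FormalEigenRel e lam c)
    (h1 : c 1 = 1) {ℓ : ℕ} (hℓ : ℓ.Prime) : c ℓ = lam ℓ := by
  have := h ℓ hℓ 1
  rw [one_mul, if_neg (by
    intro hd
    exact hℓ.one_lt.ne' (Nat.dvd_one.mp hd)), add_zero, h1, mul_one] at this
  exact this

theorem FormalEigenRel.prime_pow {e lam c : ℕ → R} (h : FormalEigenRel e lam c)
    (h1 : c 1 = 1) {ℓ : ℕ} (hℓ : ℓ.Prime) (r : ℕ) :
    c (ℓ ^ (r + 2)) = c ℓ * c (ℓ ^ (r + 1)) - e ℓ * c (ℓ ^ r) := by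
  have := h ℓ hℓ (ℓ ^ (r + 1))
  have hdiv : ℓ ^ (r + 1) / ℓ = ℓ ^ r := by
    rw [pow_succ]; exact Nat.mul_div_cancel _ hℓ.pos
  rw [if_pos (dvd_pow_self ℓ (Nat.succ_ne_zero r)), ← pow_succ, hdiv,
    ← h.prime_eq h1 hℓ] at this
  rw [← this]
  ring

theorem FormalEigenRel.mul_of_coprime {e lam c : ℕ → R} (h : FormalEigenRel e lam c)
    (h1 : c 1 = 1) : ∀ m n : ℕ, m.Coprime n → c (m * n) = c m * c n := by
  intro m
  induction m using Nat.strong_induction_on with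
  | _ m ih =>
  intro n hmn
  rcases Nat.lt_or_ge m 2 with hm2 | hm2
  · interval_cases m
    · have hn1 : n = 1 := by simpa using hmn
      rw [hn1, mul_one, h1, mul_one]
    · rw [one_mul, h1, one_mul]
  · have hℓ : (m.minFac).Prime := Nat.minFac_prime (by omega)
    have hdvd : m.minFac ∣ m := Nat.minFac_dvd m
    set ℓ := m.minFac with hℓdef
    have hℓ2 : 2 ≤ ℓ := hℓ.two_le
    obtain ⟨m', hm'⟩ := hdvd
    have hm'pos : 1 ≤ m' := by
      rcases Nat.eq_zero_or_pos m' with h0 | h0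
      · rw [h0, mul_zero] at hm'; omega
      · exact h0
    have hm'lt : m' < m := by
      rw [hm']; nlinarith
    have hmm' : m = m' * ℓ := by rw [hm', mul_comm]
    have hcop' : m'.Coprime n := Nat.Coprime.coprime_dvd_left ⟨ℓ, hmm'⟩ hmn
    have hℓn : ℓ.Coprime n := Nat.Coprime.coprime_dvd_left ⟨m', hm'⟩ hmn
    have hrel := h ℓ hℓ (m' * n)
    have hrel' := h ℓ hℓ m'
    have e1 : m' * n * ℓ = m * n := by rw [hmm']; ring
    rw [e1, ih m' hm'lt n hcop'] at hrel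
    rw [← hmm'] at hrel'
    by_cases hd : ℓ ∣ m'
    · have hd' : ℓ ∣ m' * n := Dvd.dvd.mul_right hd n
      rw [if_pos hd'] at hrel
      rw [if_pos hd] at hrel'
      have e2 : m' * n / ℓ = m' / ℓ * n := (Nat.div_mul_right_comm hd n).symm
      have hqlt : m' / ℓ < m := lt_of_le_of_lt (Nat.div_le_self m' ℓ) hm'lt
      have hcop'' : (m' / ℓ).Coprime n :=
        Nat.Coprime.coprime_dvd_left (Nat.div_dvd_of_dvd hd) hcop'
      rw [e2, ih (m' / ℓ) hqlt n hcop''] at hrel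
      have : c (m * n) = (lam ℓ * c m' - e ℓ * c (m' / ℓ)) * c n := by
        rw [sub_mul, mul_assoc, mul_assoc, ← hrel]; ring
      rw [this, ← hrel']
      ring
    · have hd' : ¬ ℓ ∣ m' * n := fun hdd =>
        hd ((Nat.Coprime.dvd_mul_right hℓn).mp hdd)
      rw [if_neg hd', add_zero] at hrel
      rw [if_neg hd, add_zero] at hrel'
      rw [hrel, hrel', mul_assoc]

end Formal

end Fermat.Agent.S49h91
end MergeWrap_S49_H91Formal

section MergeWrap_S49_H91StepC -- from S49/H91StepC.lean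

/-!
# S49 Step C: a simultaneous Hecke eigenvector gives a normalised eigenform.
-/

set_option autoImplicit false

namespace Fermat.Agent.S49h91

open CuspForm CongruenceSubgroup ModularFormClass UpperHalfPlane
open scoped MatrixGroups

section StepC

variable {N : ℕ}

theorem one_mem_strictPeriods_Gamma0' (N : ℕ) :
    (1 : ℝ) ∈ (Gamma0 N : Subgroup (GL (Fin 2) ℝ)).strictPeriods := by
  simp [CongruenceSubgroup.strictPeriods_Gamma0]

theorem qCoeff_smul_cuspForm (c : ℂ) (f : CuspForm (Gamma0 N) 2) (n : ℕ) :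
    qCoeff (⇑(c • f)) n = c * qCoeff (⇑f) n := by
  have h := ModularForm.qExpansion_smul one_pos (one_mem_strictPeriods_Gamma0' N) c f
  have hc : (⇑(c • f) : ℍ → ℂ) = c • (⇑f : ℍ → ℂ) := rfl
  rw [qCoeff, hc, h, PowerSeries.coeff_smul]
  rfl

theorem qCoeff_zero_cuspForm (f : CuspForm (Gamma0 N) 2) : qCoeff (⇑f) 0 = 0 :=
  CuspFormClass.qExpansion_coeff_zero f one_pos (one_mem_strictPeriods_Gamma0' N)

theorem qCoeff_heckeTLin_two {ℓ : ℕ} (hℓ : ℓ.Prime) (hℓN : ¬ ℓ ∣ N)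
    (f : CuspForm (Gamma0 N) 2) (n : ℕ) :
    qCoeff (⇑(CuspForm.heckeTLin 2 hℓ hℓN f)) n =
      qCoeff (⇑f) (n * ℓ) + (if ℓ ∣ n then (ℓ : ℂ) * qCoeff (⇑f) (n / ℓ) else 0) := by
  have h := ModularFormClass.qCoeff_heckeT (k := 2) f (one_mem_strictPeriods_Gamma0' N)
    hℓ.ne_zero n
  rw [CuspForm.coe_heckeTLin_apply, h, ModularForm.coeffHeckeT_apply]
  norm_num

theorem qCoeff_heckeULin_two [NeZero N] {ℓ : ℕ} (hℓ : ℓ.Prime) (hℓN : ℓ ∣ N)
    (f : CuspForm (Gamma0 N) 2) (n : ℕ) :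
    qCoeff (⇑(CuspForm.heckeULin 2 hℓN f)) n = qCoeff (⇑f) (n * ℓ) := by
  have h := ModularFormClass.qCoeff_heckeU (k := 2) f (one_mem_strictPeriods_Gamma0' N)
    hℓ.ne_zero n
  rw [CuspForm.coe_heckeULin_apply, h, ModularForm.coeffHeckeU_apply]

theorem cuspForm_eq_zero_of_qCoeff (f : CuspForm (Gamma0 N) 2)
    (h : ∀ n, qCoeff (⇑f) n = 0) : f = 0 := by
  have hq : qExpansion 1 (⇑f) = 0 := by
    ext n
    rw [map_zero]
    exact h n
  have hcusp : Fact (IsCusp OnePoint.infty (Gamma0 N : Subgroup (GL (Fin 2) ℝ))) :=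
    ⟨Subgroup.isCusp_of_mem_strictPeriods one_pos (one_mem_strictPeriods_Gamma0' N)⟩
  have := (qExpansion_eq_zero_iff (h := 1) one_pos
    (SlashInvariantFormClass.periodic_comp_ofComplex f (one_mem_strictPeriods_Gamma0' N))
    (ModularFormClass.holo f) (ModularFormClass.bdd_at_infty f)).mp hq
  exact DFunLike.coe_injective this

/-- The level-`N` weight-two "character" `ℓ ↦ ℓ` (for `ℓ ∤ N`), `0` (for `ℓ ∣ N`). -/
noncomputable def levelChar (N : ℕ) (ℓ : ℕ) : ℂ := if ℓ ∣ N then 0 else (ℓ : ℂ)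

theorem formalEigenRel_of_eigenvector [NeZero N] (v : CuspForm (Gamma0 N) 2) (θ : ℕ → ℂ)
    (hT : ∀ (ℓ : ℕ) (hℓ : ℓ.Prime) (hℓN : ¬ ℓ ∣ N), CuspForm.heckeTLin 2 hℓ hℓN v = θ ℓ • v)
    (hU : ∀ (ℓ : ℕ) (_ : ℓ.Prime) (hℓN : ℓ ∣ N), CuspForm.heckeULin 2 hℓN v = θ ℓ • v) :
    FormalEigenRel (levelChar N) θ (fun n => qCoeff (⇑v) n) := by
  intro ℓ hℓ n
  by_cases hℓN : ℓ ∣ N
  · have h := qCoeff_heckeULin_two hℓ hℓN v n
    rw [hU ℓ hℓ hℓN, qCoeff_smul_cuspForm] at h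
    simp only [levelChar, if_pos hℓN, zero_mul, ite_self, add_zero]
    exact h.symm
  · have h := qCoeff_heckeTLin_two hℓ hℓN v n
    rw [hT ℓ hℓ hℓN, qCoeff_smul_cuspForm] at h
    simp only [levelChar, if_neg hℓN]
    exact h.symm

/-- A nonzero simultaneous eigenvector of all `T_ℓ` (`ℓ ∤ N`) and `U_ℓ` (`ℓ ∣ N`) in
`S₂(Γ₀(N))` can be normalised to a normalised eigenform with `a_ℓ = θ ℓ`. -/
theorem exists_normalizedEigenform_of_eigenvector [NeZero N] (v : CuspForm (Gamma0 N) 2)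
    (hv : v ≠ 0) (θ : ℕ → ℂ)
    (hT : ∀ (ℓ : ℕ) (hℓ : ℓ.Prime) (hℓN : ¬ ℓ ∣ N), CuspForm.heckeTLin 2 hℓ hℓN v = θ ℓ • v)
    (hU : ∀ (ℓ : ℕ) (_ : ℓ.Prime) (hℓN : ℓ ∣ N), CuspForm.heckeULin 2 hℓN v = θ ℓ • v) :
    ∃ g : CuspForm (Gamma0 N) 2, g.IsNormalizedEigenform ∧
      ∀ ℓ : ℕ, ℓ.Prime → qCoeff (⇑g) ℓ = θ ℓ := by
  have hrel := formalEigenRel_of_eigenvector v θ hT hU
  have hc1 : qCoeff (⇑v) 1 ≠ 0 := by
    intro h1
    apply hv
    apply cuspForm_eq_zero_of_qCoeff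
    intro n
    rcases Nat.eq_zero_or_pos n with rfl | hn
    · exact qCoeff_zero_cuspForm v
    · exact hrel.eq_zero_of_one h1 n hn
  set c1 := qCoeff (⇑v) 1 with hc1def
  set g : CuspForm (Gamma0 N) 2 := c1⁻¹ • v with hg
  have hgc : ∀ n, qCoeff (⇑g) n = c1⁻¹ * qCoeff (⇑v) n := fun n => qCoeff_smul_cuspForm _ _ _
  have hrelg : FormalEigenRel (levelChar N) θ (fun n => qCoeff (⇑g) n) := by
    intro ℓ hℓ n
    have := hrel ℓ hℓ n
    simp only [hgc]
    simp only at this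
    split_ifs with hd
    · rw [if_pos hd] at this
      have e1 : c1⁻¹ * qCoeff (⇑v) (n * ℓ) + levelChar N ℓ * (c1⁻¹ * qCoeff (⇑v) (n / ℓ)) =
          c1⁻¹ * (qCoeff (⇑v) (n * ℓ) + levelChar N ℓ * qCoeff (⇑v) (n / ℓ)) := by ring
      rw [e1, this]
      ring
    · rw [if_neg hd] at this
      rw [add_zero] at this ⊢
      rw [this]; ring
  have hg1 : qCoeff (⇑g) 1 = 1 := by
    rw [hgc]; exact inv_mul_cancel₀ hc1
  refine ⟨g, ⟨hg1, hrelg.mul_of_coprime hg1, ?_, ?_⟩, fun ℓ hℓ => hrelg.prime_eq hg1 hℓ⟩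
  · intro p r hp hpN
    have := hrelg.prime_pow hg1 hp r
    simp only [levelChar, if_neg hpN] at this
    exact this
  · intro p r hp hpN
    have := hrelg.prime_pow hg1 hp r
    simp only [levelChar, if_pos hpN, zero_mul, sub_zero] at this
    exact this

end StepC

end Fermat.Agent.S49h91
end MergeWrap_S49_H91StepC
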